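import Fermat.Agent.JZ.Equivariance
import Fermat.Prelude.Def_ModularCurve_HeckeModule
import Fermat.Prelude.Thm_ModularCurve_coeffMap_qExpand

/-!
Galois equivariance of the Hecke operators on `JZero N`.
-/

set_option autoImplicit false

namespace Fermat.Agent.JZ

open AlgebraicCurve ModularCurve

section
variable {L : Type*} [Field L] [Algebra ℚ L] (N ℓ : ℕ) [NeZero N] [NeZero ℓ]

theorem intertwines_alpha (σ : L ≃ₐ[ℚ] L) :
    SemilinearAut.IntertwinesAlong (heckeAlphaBar L N ℓ : _ →+* _)
      (arithmeticGalois (modularFunctionFieldFull N) σ)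
      (arithmeticGalois (modularFunctionFieldFull (N * ℓ)) σ) := by
  intro x
  apply Subtype.ext
  rw [coe_arithmeticGalois_smul]
  have h1 : ((heckeAlphaBar L N ℓ x : laurentBaseChange L (modularFunctionFieldFull (N * ℓ))) :
      LaurentSeries L) = (x : LaurentSeries L) := coe_heckeAlphaBar N ℓ x
  have h2 := coe_heckeAlphaBar N ℓ (arithmeticGalois (modularFunctionFieldFull N) σ • x)
  rw [coe_arithmeticGalois_smul] at h2
  exact (congrArg _ h1).trans h2.symm

theorem intertwines_beta (σ : L ≃ₐ[ℚ] L) :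
    SemilinearAut.IntertwinesAlong (heckeBetaBar L N ℓ : _ →+* _)
      (arithmeticGalois (modularFunctionFieldFull N) σ)
      (arithmeticGalois (modularFunctionFieldFull (N * ℓ)) σ) := by
  intro x
  apply Subtype.ext
  show coeffMap (σ : L →+* L) (qExpand L ℓ (x : LaurentSeries L)) =
    qExpand L ℓ (coeffMap (σ : L →+* L) (x : LaurentSeries L))
  exact ModularCurve.coeffMap_qExpand _ _ _

variable {N ℓ}

theorem heckeOperatorAlong_smul (σ : L ≃ₐ[ℚ] L)
    (x : Pic0 L (laurentBaseChange L (modularFunctionFieldFull N))) :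
    heckeOperatorAlong L N ℓ (σ • x) = σ • heckeOperatorAlong L N ℓ x := by
  by_cases h : HeckeInputsAlong L N ℓ
  · obtain ⟨hα, hβ, hP, hfin, hFI, hN⟩ := h
    rw [heckeOperatorAlong_eq hα hβ hFI hfin hN, galois_smul_pic0_def, galois_smul_pic0_def]
    exact pic0_correspondence_smul hFI hfin hN (intertwines_beta N ℓ σ)
      (intertwines_alpha N ℓ σ) x
  · rw [heckeOperatorAlong_of_not h]
    exact (smul_zero (A := Pic0 L (laurentBaseChange L (modularFunctionFieldFull N))) σ).symm

end

variable {N : ℕ} [NeZero N]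

/-- **Galois equivariance of the Hecke operators on `J₀(N)`.** -/
theorem heckeOperatorBar_smul (ℓ : Nat.Primes)
    (σ : AlgebraicClosure ℚ ≃ₐ[ℚ] AlgebraicClosure ℚ) (x : JZero N) :
    heckeOperatorBar N ℓ (σ • x) = σ • heckeOperatorBar N ℓ x := by
  haveI : NeZero (ℓ : ℕ) := ⟨ℓ.2.ne_zero⟩
  exact heckeOperatorAlong_smul σ x

variable (N) in
theorem smulCommClass_heckeModuleBar :
    letI := heckeModuleBar N
    SMulCommClass (AlgebraicClosure ℚ ≃ₐ[ℚ] AlgebraicClosure ℚ) HeckeAlg (JZero N) := by
  letI := heckeModuleBar N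
  refine ⟨fun σ t x => ?_⟩
  induction t using MvPolynomial.induction_on generalizing x with
  | C a =>
    rw [heckeModuleBar_C_smul, heckeModuleBar_C_smul]
    exact map_zsmul (DistribSMul.toAddMonoidHom (JZero N) σ) a x
  | add p q hp hq => rw [add_smul, smul_add, hp, hq, add_smul]
  | mul_X p ℓ hp =>
    rw [mul_smul, mul_smul, hp]
    congr 1
    show σ • (heckeGen ℓ • x) = heckeGen ℓ • (σ • x)
    by_cases h : HeckeOperatorsCommuteBar N
    · rw [heckeModuleBar_heckeGen_smul h, heckeModuleBar_heckeGen_smul h,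
        heckeOperatorBar_smul]
    · rw [heckeModuleBar_heckeGen_smul_of_not h, heckeModuleBar_heckeGen_smul_of_not h]
      exact smul_zero (A := JZero N) σ

end Fermat.Agent.JZ
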