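import Fermat.Agent.JZ.Along
import Fermat.Agent.JZ.Galois
import Fermat.Agent.Gam0.Index

/-!
Commutation of the Hecke operators on `JZero N`, from structural facts on the function fields.
-/

set_option autoImplicit false

namespace Fermat.Agent.JZ

open AlgebraicCurve ModularCurve Fermat.Agent.FF IntermediateField

/-- The function field of `X₀(M)` over `L`, inside Laurent series. -/
noncomputable abbrev FN (L : Type) [Field L] [Algebra ℚ L] (M : ℕ) [NeZero M] :
    IntermediateField L (LaurentSeries L) :=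
  laurentBaseChange L (modularFunctionFieldFull M)

/-- Structural facts on the function fields of `X₀(M)`. -/
structure ModularFieldInputs (L : Type) [Field L] [Algebra ℚ L] : Prop where
  fnField : ∀ (M : ℕ) [NeZero M], IsFnField L (FN L M)
  relfinrank : ∀ (M : ℕ) [NeZero M],
    IntermediateField.relfinrank L⟮coeffEmb L jq⟯ (FN L M) = dedekindPsi M
  generation : ∀ (M : ℕ) [NeZero M],
    FN L M ≤ IntermediateField.adjoin L {coeffEmb L jq, coeffEmb L (qExpand ℚ M jq)}

/-- Norm formula and fundamental identity for function fields over `L` -/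
structure NormInputs (L : Type) [Field L] : Prop where
  norm : ∀ (F F' : Type) [Field F] [Field F'] [Algebra L F] [Algebra L F'] [IsFnField L F]
    [IsFnField L F'] (φ : F →ₐ[L] F') (hfin : FiniteAlong L φ), NormFormulaAlong L φ hfin
  fund : ∀ (F F' : Type) [Field F] [Field F'] [Algebra L F] [Algebra L F'] [IsFnField L F]
    [IsFnField L F'] [HasPrincipalDivisors L F'] (φ : F →ₐ[L] F') (hφ : φ.toRingHom.IsIntegral),
      FundamentalIdentityAlong L φ hφ

section

variable {L : Type} [Field L] [Algebra ℚ L]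

theorem FN_mono {M M' : ℕ} [NeZero M] [NeZero M'] (h : M ∣ M') : FN L M ≤ FN L M' := by
  refine IntermediateField.adjoin_le_iff.mpr ?_
  rintro _ ⟨y, hy, rfl⟩
  exact coeffEmb_mem_laurentBaseChange L (full_degeneracy_le h hy)

theorem qExpand_mem_FN {M : ℕ} [NeZero M] (d : ℕ) [NeZero d] [NeZero (M * d)]
    {x : LaurentSeries L} (hx : x ∈ FN L M) : qExpand L d x ∈ FN L (M * d) :=
  (heckeBetaBar L M d ⟨x, hx⟩).2

/-- `q ↦ q ^ d` as an algebra homomorphism between intermediate fields -/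
noncomputable def qexpHom (d : ℕ) [NeZero d] {A B : IntermediateField L (LaurentSeries L)}
    (h : ∀ x ∈ A, qExpand L d x ∈ B) : A →ₐ[L] B where
  toFun x := ⟨qExpand L d (x : LaurentSeries L), h x x.2⟩
  map_one' := Subtype.ext (map_one (qExpand L d))
  map_mul' _ _ := Subtype.ext (map_mul (qExpand L d) _ _)
  map_zero' := Subtype.ext (map_zero (qExpand L d))
  map_add' _ _ := Subtype.ext (map_add (qExpand L d) _ _)
  commutes' a := Subtype.ext <| by
    show qExpand L d (algebraMap L (LaurentSeries L) a) = algebraMap L (LaurentSeries L) a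
    rw [algebraMap_laurentSeries_eq_single, qExpand_single, mul_zero]

theorem coe_qexpHom (d : ℕ) [NeZero d] {A B : IntermediateField L (LaurentSeries L)}
    (h : ∀ x ∈ A, qExpand L d x ∈ B) (x : A) :
    (qexpHom d h x : LaurentSeries L) = qExpand L d (x : LaurentSeries L) := rfl

theorem relfinrank_FN (H : ModularFieldInputs L) {M M' : ℕ} [NeZero M] [NeZero M'] (h : M ∣ M') :
    dedekindPsi M * (FN L M).relfinrank (FN L M') = dedekindPsi M' := by
  rw [← H.relfinrank M, ← H.relfinrank M']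
  refine IntermediateField.relfinrank_mul_relfinrank ?_ (FN_mono h)
  rw [IntermediateField.adjoin_simple_le_iff]
  have h1 := jqd_mem_full M (one_dvd M)
  rw [qExpand_one_apply] at h1
  exact coeffEmb_mem_laurentBaseChange L h1

theorem dedekindPsi_pos' {M : ℕ} (hM : 0 < M) : 0 < dedekindPsi M := by
  rw [dedekindPsi]
  refine Finset.sum_pos (fun d hd => ?_) ⟨1, ?_⟩
  · rw [Finset.mem_filter, Nat.mem_divisors] at hd
    exact Nat.div_pos (Nat.le_of_dvd hM hd.1.1) (Nat.pos_of_dvd_of_pos hd.1.1 hM)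
  · rw [Finset.mem_filter, Nat.mem_divisors]
    exact ⟨⟨one_dvd M, hM.ne'⟩, squarefree_one⟩

/-- the degree of `X₀(Mp) → X₀(M)` only depends on whether `p` divides `M`. -/
theorem relfinrank_FN_prime (H : ModularFieldInputs L) {M p : ℕ} [NeZero M] (hp : p.Prime)
    [NeZero (M * p)] :
    (FN L M).relfinrank (FN L (M * p)) = if p ∣ M then p else p + 1 := by
  have hM : 0 < M := Nat.pos_of_ne_zero (NeZero.ne M)
  have h1 := relfinrank_FN H (L := L) (M := M) (M' := M * p) (dvd_mul_right M p)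
  have h2 : dedekindPsi M * (FN L M).relfinrank (FN L (M * p)) =
      dedekindPsi M * (if p ∣ M then p else p + 1) := by
    rw [h1]
    split_ifs with hd
    · rw [Gam0.dedekindPsi_mul_of_dvd hM hp hd, mul_comm]
    · rw [Gam0.dedekindPsi_mul_of_not_dvd hM hp hd, mul_comm]
  exact Nat.eq_of_mul_eq_mul_left (dedekindPsi_pos' hM) h2

theorem coeffEmb_qExpand_mem {M d : ℕ} [NeZero M] [NeZero d] (h : d ∣ M) :
    qExpand L d (coeffEmb L jq) ∈ FN L M := by
  have h1 : qExpand L d (coeffEmb L jq) = coeffEmb L (qExpand ℚ d jq) :=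
    (ModularCurve.coeffMap_qExpand _ _ _).symm
  rw [h1]
  exact coeffEmb_mem_laurentBaseChange L (jqd_mem_full M h)

theorem eq_top_of_gen (H : ModularFieldInputs L) {M : ℕ} [NeZero M] (S : Subfield (FN L M))
    (h0 : ∀ a : L, algebraMap L (FN L M) a ∈ S)
    (h1 : ∀ x : FN L M, (x : LaurentSeries L) = coeffEmb L jq → x ∈ S)
    (h2 : ∀ x : FN L M, (x : LaurentSeries L) = qExpand L M (coeffEmb L jq) → x ∈ S) : S = ⊤ := by
  rw [eq_top_iff]
  intro x _
  -- the image of `S` in Laurent series, as an intermediate field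
  let S' : IntermediateField L (LaurentSeries L) :=
    { S.map (FN L M).val.toRingHom with
      algebraMap_mem' := fun a => ⟨algebraMap L (FN L M) a, h0 a, rfl⟩ }
  have hS' : ∀ y : LaurentSeries L, y ∈ S' ↔ ∃ z ∈ S, ((z : FN L M) : LaurentSeries L) = y :=
    fun y => Iff.rfl
  have hj : coeffEmb L jq ∈ FN L M := by
    have := coeffEmb_qExpand_mem (L := L) (M := M) (d := 1) (one_dvd M)
    rwa [qExpand_one_apply] at this
  have h3 : IntermediateField.adjoin L {coeffEmb L jq, coeffEmb L (qExpand ℚ M jq)} ≤ S' := by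
    rw [IntermediateField.adjoin_le_iff]
    rintro y (rfl | rfl)
    · exact (hS' _).mpr ⟨⟨_, hj⟩, h1 _ rfl, rfl⟩
    · refine (hS' _).mpr ⟨⟨coeffEmb L (qExpand ℚ M jq),
        coeffEmb_mem_laurentBaseChange L (jqd_mem_full M dvd_rfl)⟩, h2 _ ?_, rfl⟩
      exact ModularCurve.coeffMap_qExpand _ _ _
  obtain ⟨z, hz, hzx⟩ := (hS' _).mp (h3 (H.generation M x.2))
  have : z = x := Subtype.ext hzx
  exact this ▸ hz

set_option maxHeartbeats 2000000 in
/-- **Commutation** of the Hecke correspondences at distinct primes, on divisors. -/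
theorem correspondence_comm_modular [IsAlgClosed L] (H : ModularFieldInputs L) (hNF : NormInputs L)
    (N ℓ m : ℕ) [NeZero N] (hℓ : ℓ.Prime) (hm : m.Prime) (hne : ℓ ≠ m)
    [NeZero ℓ] [NeZero m]
    [HasPrincipalDivisors L (FN L (N * ℓ))] [HasPrincipalDivisors L (FN L (N * m))]
    (hα₁ : HeckeAlphaBarIntegral L N m) (hβ₁ : HeckeBetaBarIntegral L N m)
    (hα₂ : HeckeAlphaBarIntegral L N ℓ) (hβ₂ : HeckeBetaBarIntegral L N ℓ)
    (D : Divisor L (FN L N)) :
    Divisor.correspondence (heckeBetaBar L N ℓ) (heckeAlphaBar L N ℓ) hβ₂ hα₂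
      (Divisor.correspondence (heckeBetaBar L N m) (heckeAlphaBar L N m) hβ₁ hα₁ D) =
    Divisor.correspondence (heckeBetaBar L N m) (heckeAlphaBar L N m) hβ₁ hα₁
      (Divisor.correspondence (heckeBetaBar L N ℓ) (heckeAlphaBar L N ℓ) hβ₂ hα₂ D) := by
  haveI := algebraRat.charZero L
  haveI := H.fnField N
  haveI := H.fnField (N * ℓ)
  haveI := H.fnField (N * m)
  haveI := H.fnField (N * ℓ * m)
  haveI := FF.hasPrincipalDivisors L (FN L (N * ℓ * m))
  have hdvd : N * m ∣ N * ℓ * m := ⟨ℓ, by ring⟩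
  have hcomm3 : N * m * ℓ = N * ℓ * m := by ring
  have hq : ∀ x ∈ FN L (N * m), qExpand L ℓ x ∈ FN L (N * ℓ * m) := by
    intro x hx
    have h1 := qExpand_mem_FN ℓ hx
    exact FN_mono (L := L) (M := N * m * ℓ) (M' := N * ℓ * m) (dvd_of_eq hcomm3) h1
  let α₂' : FN L (N * m) →ₐ[L] FN L (N * ℓ * m) := IntermediateField.inclusion (FN_mono hdvd)
  let β₂' : FN L (N * m) →ₐ[L] FN L (N * ℓ * m) := qexpHom ℓ hq
  let α₁' : FN L (N * ℓ) →ₐ[L] FN L (N * ℓ * m) := heckeAlphaBar L (N * ℓ) m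
  let β₁' : FN L (N * ℓ) →ₐ[L] FN L (N * ℓ * m) := heckeBetaBar L (N * ℓ) m
  have cα₁ : ∀ x, ((heckeAlphaBar L N m x : FN L (N * m)) : LaurentSeries L) = x :=
    coe_heckeAlphaBar N m
  have cα₂ : ∀ x, ((heckeAlphaBar L N ℓ x : FN L (N * ℓ)) : LaurentSeries L) = x :=
    coe_heckeAlphaBar N ℓ
  have cβ₁ : ∀ x, ((heckeBetaBar L N m x : FN L (N * m)) : LaurentSeries L) = qExpand L m x :=
    coe_heckeBetaBar N m
  have cβ₂ : ∀ x, ((heckeBetaBar L N ℓ x : FN L (N * ℓ)) : LaurentSeries L) = qExpand L ℓ x :=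
    coe_heckeBetaBar N ℓ
  have cα₁' : ∀ x, ((α₁' x : FN L (N * ℓ * m)) : LaurentSeries L) = x :=
    coe_heckeAlphaBar (N * ℓ) m
  have cβ₁' : ∀ x, ((β₁' x : FN L (N * ℓ * m)) : LaurentSeries L) = qExpand L m x :=
    coe_heckeBetaBar (N * ℓ) m
  have cα₂' : ∀ x, ((α₂' x : FN L (N * ℓ * m)) : LaurentSeries L) = x :=
    fun x => IntermediateField.coe_inclusion _ x
  have cβ₂' : ∀ x, ((β₂' x : FN L (N * ℓ * m)) : LaurentSeries L) = qExpand L ℓ x :=
    fun x => rfl
  refine correspondence_comm (α₁' := α₁') (β₁' := β₁') (α₂' := α₂') (β₂' := β₂')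
    (fun v => by rw [FF.deg_eq_one v]; exact one_ne_zero)
    (simpleApprox _ _) (simpleApprox _ _) hα₁ hβ₁ hα₂ hβ₂
    (isIntegralAlong α₁') (isIntegralAlong β₁') (isIntegralAlong α₂') (isIntegralAlong β₂')
    ?_ ?_ ?_ ?_ (finiteAlong _) (finiteAlong _) (finiteAlong _) (finiteAlong _)
    (hNF.norm _ _ _ _) (hNF.norm _ _ _ _) (hNF.norm _ _ _ _) (hNF.norm _ _ _ _)
    ?_ ?_ ?_ ?_ D
  · refine AlgHom.ext fun x => Subtype.ext ?_
    rw [AlgHom.comp_apply, AlgHom.comp_apply, cα₂', cα₁', cα₁, cα₂]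
  · refine AlgHom.ext fun x => Subtype.ext ?_
    rw [AlgHom.comp_apply, AlgHom.comp_apply, cβ₂', cα₁', cα₁, cβ₂]
  · refine AlgHom.ext fun x => Subtype.ext ?_
    rw [AlgHom.comp_apply, AlgHom.comp_apply, cβ₁', cα₂', cα₂, cβ₁]
  · refine AlgHom.ext fun x => Subtype.ext ?_
    rw [AlgHom.comp_apply, AlgHom.comp_apply, cβ₂', cβ₁', cβ₁, cβ₂, qExpand_qExpand,
      qExpand_qExpand]
    exact qExpand_congr (mul_comm ℓ m) _
  · have h1 : finrankAlong L (heckeAlphaBar L N m) = (FN L N).relfinrank (FN L (N * m)) :=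
      finrankAlong_inclusion _
    have h2 : finrankAlong L α₁' = (FN L (N * ℓ)).relfinrank (FN L (N * ℓ * m)) :=
      finrankAlong_inclusion _
    rw [h1, h2, relfinrank_FN_prime H hm, relfinrank_FN_prime H hm]
    have h3 : m ∣ N * ℓ ↔ m ∣ N := by
      rw [hm.dvd_mul]
      refine ⟨fun h => h.resolve_right fun h => hne ?_, Or.inl⟩
      exact ((Nat.prime_dvd_prime_iff_eq hm hℓ).mp h).symm
    simp only [h3]
  · have h1 : finrankAlong L (heckeAlphaBar L N ℓ) = (FN L N).relfinrank (FN L (N * ℓ)) :=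
      finrankAlong_inclusion _
    have h2 : finrankAlong L α₂' = (FN L (N * m)).relfinrank (FN L (N * ℓ * m)) :=
      finrankAlong_inclusion _
    have h4 : (FN L (N * m)).relfinrank (FN L (N * ℓ * m)) =
        (FN L (N * m)).relfinrank (FN L (N * m * ℓ)) := by
      congr 1
      simp only [hcomm3]
    rw [h1, h2, h4, relfinrank_FN_prime H hℓ, relfinrank_FN_prime H hℓ]
    have h3 : ℓ ∣ N * m ↔ ℓ ∣ N := by
      rw [hℓ.dvd_mul]
      refine ⟨fun h => h.resolve_right fun h => hne ?_, Or.inl⟩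
      exact (Nat.prime_dvd_prime_iff_eq hℓ hm).mp h
    simp only [h3]
  · intro S hS1 hS2
    refine eq_top_of_gen H S (fun a => ?_) (fun x hx => ?_) (fun x hx => ?_)
    · have := hS1 (algebraMap L _ a)
      rwa [AlgHom.commutes] at this
    · have h1 := coeffEmb_qExpand_mem (L := L) (M := N * ℓ) (d := 1) (one_dvd _)
      rw [qExpand_one_apply] at h1
      have h2 := hS1 ⟨_, h1⟩
      have h3 : α₁' ⟨_, h1⟩ = x := Subtype.ext (by rw [cα₁', hx])
      rwa [h3] at h2
    · have h1 := coeffEmb_qExpand_mem (L := L) (M := N * m) (d := N * m) dvd_rfl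
      have h2 := hS2 ⟨_, h1⟩
      have h3 : β₂' ⟨_, h1⟩ = x := Subtype.ext (by
        rw [cβ₂', hx, qExpand_qExpand]
        exact qExpand_congr (by ring) _)
      rwa [h3] at h2
  · intro S hS1 hS2
    refine eq_top_of_gen H S (fun a => ?_) (fun x hx => ?_) (fun x hx => ?_)
    · have := hS1 (algebraMap L _ a)
      rwa [AlgHom.commutes] at this
    · have h1 := coeffEmb_qExpand_mem (L := L) (M := N * m) (d := 1) (one_dvd _)
      rw [qExpand_one_apply] at h1
      have h2 := hS1 ⟨_, h1⟩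
      have h3 : α₂' ⟨_, h1⟩ = x := Subtype.ext (by rw [cα₂', hx])
      rwa [h3] at h2
    · have h1 := coeffEmb_qExpand_mem (L := L) (M := N * ℓ) (d := N * ℓ) dvd_rfl
      have h2 := hS2 ⟨_, h1⟩
      have h3 : β₁' ⟨_, h1⟩ = x := Subtype.ext (by
        rw [cβ₁', hx, qExpand_qExpand]
        exact qExpand_congr (by ring) _)
      rwa [h3] at h2

end

end Fermat.Agent.JZ

namespace Fermat.Agent.JZ

open AlgebraicCurve ModularCurve Fermat.Agent.FF IntermediateField

section

variable {L : Type} [Field L] [Algebra ℚ L]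

/-- All the inputs in the definition of the Hecke operators are available. -/
theorem heckeInputsAlong (H : ModularFieldInputs L) (hNF : NormInputs L)
    (N ℓ : ℕ) [NeZero N] [NeZero ℓ] : HeckeInputsAlong L N ℓ := by
  haveI := algebraRat.charZero L
  haveI := H.fnField N
  haveI := H.fnField (N * ℓ)
  haveI hP : HasPrincipalDivisors L (FN L (N * ℓ)) := FF.hasPrincipalDivisors L (FN L (N * ℓ))
  exact heckeInputsAlong_intro (isIntegralAlong _) (isIntegralAlong _) (hNF.fund _ _ _ _)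
    (finiteAlong _) (hNF.norm _ _ _ _)

theorem heckeOperatorAlong_comm [IsAlgClosed L] (H : ModularFieldInputs L) (hNF : NormInputs L)
    (N ℓ m : ℕ) [NeZero N] (hℓ : ℓ.Prime) (hm : m.Prime) (hne : ℓ ≠ m)
    [NeZero ℓ] [NeZero m] (x : Pic0 L (FN L N)) :
    heckeOperatorAlong L N ℓ (heckeOperatorAlong L N m x) =
      heckeOperatorAlong L N m (heckeOperatorAlong L N ℓ x) := by
  obtain ⟨hα₁, hβ₁, hP₁, hf₁, hFI₁, hN₁⟩ := heckeInputsAlong H hNF N m
  obtain ⟨hα₂, hβ₂, hP₂, hf₂, hFI₂, hN₂⟩ := heckeInputsAlong H hNF N ℓ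
  rw [heckeOperatorAlong_eq hα₁ hβ₁ hFI₁ hf₁ hN₁, heckeOperatorAlong_eq hα₂ hβ₂ hFI₂ hf₂ hN₂]
  exact pic0_correspondence_comm hα₁ hβ₁ hα₂ hβ₂ hf₁ hf₂ hN₁ hN₂ hFI₁ hFI₂
    (correspondence_comm_modular H hNF N ℓ m hℓ hm hne hα₁ hβ₁ hα₂ hβ₂) x

end

/-- **The Hecke operators on `JZero N` commute.** -/
theorem heckeOperatorsCommuteBar_of (H : ModularFieldInputs (AlgebraicClosure ℚ))
    (hNF : NormInputs (AlgebraicClosure ℚ)) (N : ℕ) [NeZero N] : HeckeOperatorsCommuteBar N := by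
  intro ℓ m
  by_cases h : ℓ = m
  · rw [h]
  · haveI : NeZero (ℓ : ℕ) := ⟨ℓ.2.ne_zero⟩
    haveI : NeZero (m : ℕ) := ⟨m.2.ne_zero⟩
    refine LinearMap.ext fun x => ?_
    exact heckeOperatorAlong_comm H hNF N ℓ m ℓ.2 m.2 (fun h' => h (Subtype.ext h')) x

end Fermat.Agent.JZ
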