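import Fermat.Prelude.Def_AlgebraicCurve_Correspondence
import Fermat.Agent.FF.Basic

/-!
Base change identity `b^* a_* = a'_* b'^*` for divisors.
-/

set_option autoImplicit false

namespace Fermat.Agent.JZ

open AlgebraicCurve IsLocalRing

variable {K F F₁ F₂ F₃ : Type*} [Field K] [Field F] [Field F₁] [Field F₂] [Field F₃]
  [Algebra K F] [Algebra K F₁] [Algebra K F₂] [Algebra K F₃]

/-- the norm along an algebra homomorphism -/
noncomputable def normAlong (φ : F →ₐ[K] F₁) : F₁ →* F :=
  letI := algebraAlong φ
  Algebra.norm F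

theorem normAlong_ne_zero (φ : F →ₐ[K] F₁) (hfin : FiniteAlong K φ) {f : F₁} (hf : f ≠ 0) :
    normAlong φ f ≠ 0 := by
  letI := algebraAlong φ
  haveI : Module.Finite F F₁ := hfin
  exact Algebra.norm_ne_zero_iff.mpr hf

theorem pushforwardAlong_apply_of_ord (φ : F →ₐ[K] F₁) (hφ : φ.toRingHom.IsIntegral)
    (hfin : FiniteAlong K φ)
    (hN : NormFormulaAlong K φ hfin) {f : F₁} (hf : f ≠ 0) {D : Divisor K F₁}
    (hD : ∀ w, D w = w.ord f) (v : Place K F) :
    Divisor.pushforwardAlong φ hφ D v = v.ord (normAlong φ f) :=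
  hN f hf D hD v

/-- Values of a push-forward only depend on the values of the divisor in the fibre. -/
theorem pushforwardAlong_apply_congr (φ : F →ₐ[K] F₁) (hφ : φ.toRingHom.IsIntegral)
    {D D' : Divisor K F₁} (v : Place K F)
    (h : ∀ w : Place K F₁, w.restrictAlong φ hφ = v → D w = D' w) :
    Divisor.pushforwardAlong φ hφ D v = Divisor.pushforwardAlong φ hφ D' v := by
  classical
  rw [← sub_eq_zero, ← Finsupp.sub_apply, ← map_sub]
  letI := algebraAlong φ
  haveI := isScalarTower_along φ
  haveI := isIntegral_along φ hφ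
  show Divisor.pushforward F (D - D') v = 0
  rw [Divisor.pushforward_apply]
  refine Finset.sum_eq_zero fun w _ => ?_
  split_ifs with hw
  · rw [Finsupp.sub_apply, h w hw, sub_self, zero_mul]
  · rfl

theorem restrictAlong_comp (φ : F →ₐ[K] F₁) (hφ : φ.toRingHom.IsIntegral)
    (ψ : F₁ →ₐ[K] F₂) (hψ : ψ.toRingHom.IsIntegral)
    (hψφ : (ψ.comp φ).toRingHom.IsIntegral) (w : Place K F₂) :
    (w.restrictAlong ψ hψ).restrictAlong φ hφ = w.restrictAlong (ψ.comp φ) hψφ := by
  apply Place.ext
  ext x
  exact Iff.rfl

/-- **Base change identity** for divisors. -/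
theorem pullbackAlong_pushforwardAlong
    {a : F →ₐ[K] F₁} {b : F →ₐ[K] F₂} {b' : F₁ →ₐ[K] F₃} {a' : F₂ →ₐ[K] F₃}
    (hcomm : b'.comp a = a'.comp b)
    (ha : a.toRingHom.IsIntegral) (hb : b.toRingHom.IsIntegral)
    (hb' : b'.toRingHom.IsIntegral) (ha' : a'.toRingHom.IsIntegral)
    [HasPrincipalDivisors K F₁] [HasPrincipalDivisors K F₂] [HasPrincipalDivisors K F₃]
    (hfa : FiniteAlong K a) (hfa' : FiniteAlong K a')
    (hNa : NormFormulaAlong K a hfa) (hNa' : NormFormulaAlong K a' hfa')
    (hnorm : ∀ g : F₁, b (normAlong a g) = normAlong a' (b' g))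
    (happ : ∀ (w : Place K F₁) (S : Finset (Place K F₁)), w ∉ S →
      ∃ g : F₁, w.ord g = 1 ∧ ∀ v ∈ S, v.ord g = 0) (D : Divisor K F₁) :
    Divisor.pullbackAlong b hb (Divisor.pushforwardAlong a ha D) =
      Divisor.pushforwardAlong a' ha' (Divisor.pullbackAlong b' hb' D) := by
  classical
  induction D using Finsupp.induction_linear with
  | zero => simp only [map_zero]
  | add D E hD hE => rw [map_add, map_add, map_add, map_add, hD, hE]
  | single w₁ n =>
    have hrestr : ∀ w₃ : Place K F₃, (w₃.restrictAlong b' hb').restrictAlong a ha =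
        (w₃.restrictAlong a' ha').restrictAlong b hb := by
      intro w₃
      apply Place.ext
      ext x
      show b' (a x) ∈ w₃.toValuationSubring ↔ a' (b x) ∈ w₃.toValuationSubring
      have h1 : b' (a x) = a' (b x) := DFunLike.congr_fun hcomm x
      rw [h1]
    -- the place below, and its fibre in `F₁`
    set P := w₁.restrictAlong a ha with hP
    let S : Finset (Place K F₁) := (Place.fiberAlong a ha P).erase w₁
    obtain ⟨g, hg1, hg0⟩ := happ w₁ S (Finset.notMem_erase _ _)
    have hgne : g ≠ 0 := by
      rintro rfl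
      rw [Place.ord_zero] at hg1
      exact zero_ne_one hg1
    obtain ⟨D, hD, -⟩ := HasPrincipalDivisors.exists_divisor (K := K) g hgne
    have hDP : ∀ w : Place K F₁, w.restrictAlong a ha = P → (n • D) w = Finsupp.single w₁ n w := by
      intro w hw
      rw [Finsupp.smul_apply, hD, smul_eq_mul]
      by_cases h : w = w₁
      · rw [h, hg1, Finsupp.single_eq_same, mul_one]
      · rw [hg0 w (Finset.mem_erase.mpr ⟨h, Place.mem_fiberAlong.mpr hw⟩), mul_zero,
          Finsupp.single_eq_of_ne h]
    -- the principal divisors of `b' g`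
    obtain ⟨D', hD', -⟩ := HasPrincipalDivisors.exists_divisor (K := K) (b' g)
      ((map_ne_zero b').mpr hgne)
    have hpull : Divisor.pullbackAlong b' hb' D = D' := by
      ext w
      rw [Divisor.pullbackAlong_apply, hD, hD', Place.ord_restrictAlong b' hb']
    -- identity for the principal divisor
    have hprin : ∀ w₂ : Place K F₂,
        Divisor.pullbackAlong b hb (Divisor.pushforwardAlong a ha (n • D)) w₂ =
          Divisor.pushforwardAlong a' ha' (Divisor.pullbackAlong b' hb' (n • D)) w₂ := by
      intro w₂
      rw [map_zsmul, map_zsmul, map_zsmul, map_zsmul, Finsupp.smul_apply, Finsupp.smul_apply]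
      congr 1
      rw [Divisor.pullbackAlong_apply, pushforwardAlong_apply_of_ord a ha hfa hNa hgne hD,
        ← Place.ord_restrictAlong b hb, hpull,
        pushforwardAlong_apply_of_ord a' ha' hfa' hNa' ((map_ne_zero b').mpr hgne) hD', hnorm]
    ext w₂
    by_cases hw₂ : w₂.restrictAlong b hb = P
    · -- above `P` we can replace the place by the principal divisor
      have h1 : Divisor.pullbackAlong b hb (Divisor.pushforwardAlong a ha (Finsupp.single w₁ n)) w₂
          = Divisor.pullbackAlong b hb (Divisor.pushforwardAlong a ha (n • D)) w₂ := by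
        rw [Divisor.pullbackAlong_apply, Divisor.pullbackAlong_apply, hw₂]
        congr 1
        exact pushforwardAlong_apply_congr a ha P fun w hw => (hDP w hw).symm
      have h2 : Divisor.pushforwardAlong a' ha'
            (Divisor.pullbackAlong b' hb' (Finsupp.single w₁ n)) w₂ =
          Divisor.pushforwardAlong a' ha' (Divisor.pullbackAlong b' hb' (n • D)) w₂ := by
        refine pushforwardAlong_apply_congr a' ha' w₂ fun w₃ hw₃ => ?_
        rw [Divisor.pullbackAlong_apply, Divisor.pullbackAlong_apply]
        congr 1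
        refine (hDP _ ?_).symm
        rw [hrestr, hw₃, hw₂]
      rw [h1, h2]
      exact hprin w₂
    · -- both sides vanish
      have h1 : Divisor.pullbackAlong b hb (Divisor.pushforwardAlong a ha (Finsupp.single w₁ n)) w₂
          = 0 := by
        rw [Divisor.pullbackAlong_apply]
        have h3 : Divisor.pushforwardAlong a ha (Finsupp.single w₁ n) (w₂.restrictAlong b hb) =
            Divisor.pushforwardAlong a ha 0 (w₂.restrictAlong b hb) := by
          refine pushforwardAlong_apply_congr a ha _ fun w hw => ?_
          rw [Finsupp.zero_apply]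
          refine Finsupp.single_eq_of_ne fun h => hw₂ ?_
          rw [← hw, h, hP]
        rw [h3, map_zero, Finsupp.zero_apply, mul_zero]
      have h2 : Divisor.pushforwardAlong a' ha'
            (Divisor.pullbackAlong b' hb' (Finsupp.single w₁ n)) w₂ = 0 := by
        have h3 : Divisor.pushforwardAlong a' ha'
            (Divisor.pullbackAlong b' hb' (Finsupp.single w₁ n)) w₂ =
            Divisor.pushforwardAlong a' ha' 0 w₂ := by
          refine pushforwardAlong_apply_congr a' ha' _ fun w₃ hw₃ => ?_
          rw [Finsupp.zero_apply, Divisor.pullbackAlong_apply]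
          rw [Finsupp.single_eq_of_ne, mul_zero]
          intro h
          apply hw₂
          rw [← hw₃, ← hrestr, h, hP]
        rw [h3, map_zero, Finsupp.zero_apply]
      rw [h1, h2]

end Fermat.Agent.JZ
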