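import Fermat.Agent.S24Lib.Ident
import Fermat.Agent.JZ.ModularComm

/-!
# The function fields of `X₀(M)`: the structural inputs

From the Galois-theoretic description of the field of modular functions (S24Lib) we obtain, over an
algebraically closed subfield of `ℂ`:
* `F_M` is a function field in one variable;
* `[F_M : K(j)] = ψ(M)`;
* `F_M = K(j, j_M)`.
-/

set_option autoImplicit false
set_option linter.unusedSectionVars false
set_option linter.style.haveILetI false

namespace Fermat.Agent.JZ

open UpperHalfPlane hiding I
open HahnSeries ModularCurve AlgebraicCurve IntermediateField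
open scoped MatrixGroups Pointwise
open Fermat.Agent.ModFn Fermat.Agent.FF Fermat.Agent.Gam0 Fermat.Agent.Comb Fermat.Agent.S24Lib

section Embedding

variable (K : Type*) [Field K] [Algebra K ℂ] [IsAlgClosed K] (M : ℕ) [NeZero M]
variable (L : Type*) [Field L] [Algebra (modR K M) L] [IsFractionRing (modR K M) L]
  [Algebra K L] [IsScalarTower K (modR K M) L]

theorem jL_eq_jdL_one : jL K M L = jdL K M L 1 (one_dvd M) := by
  rw [jdL, jdR_one]
  rfl

/-- functions invariant under `Γ₀(N)` are generated by `j` and `j_N`. -/
theorem mem_adjoin_pair {N : ℕ} [NeZero N] (hNM : N ∣ M) {y : L}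
    (hy : ∀ g ∈ CongruenceSubgroup.Gamma0 N, phi K M L g y = y) :
    y ∈ IntermediateField.adjoin K {jL K M L, jdL K M L N hNM} := by
  haveI hG := isGaloisGroup_range (phi K M L) (phi_jL K M L) (fun _ hy => mem_adjoin_jL K M L hy)
  have hle : K⟮jL K M L⟯ ≤ IntermediateField.adjoin K {jL K M L, jdL K M L N hNM} := by
    rw [IntermediateField.adjoin_simple_le_iff]
    apply IntermediateField.subset_adjoin
    simp
  let E : IntermediateField K⟮jL K M L⟯ L := IntermediateField.extendScalars hle
  have h1 : FixedPoints.intermediateField (fixingSubgroup (phi K M L).range (E : Set L)) = E :=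
    IsGaloisGroup.fixedPoints_of_isGaloisGroup (phi K M L).range K⟮jL K M L⟯ L _ E
  have h2 : y ∈ E := by
    rw [← h1]
    rintro ⟨⟨_, g, rfl⟩, hg⟩
    apply hy
    apply mem_Gamma0_of_actR_jdR K M hNM
    apply IsFractionRing.injective (modR K M) L
    rw [← phi_algebraMap]
    rw [mem_fixingSubgroup_iff] at hg
    have h3 : jdL K M L N hNM ∈ (E : Set L) := by
      change jdL K M L N hNM ∈ IntermediateField.adjoin K {jL K M L, jdL K M L N hNM}
      apply IntermediateField.subset_adjoin
      simp
    exact hg _ h3
  exact h2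

theorem adjoin_gensL_le {N : ℕ} [NeZero N] (hNM : N ∣ M) :
    IntermediateField.adjoin K (gensL K M L N) ≤
      IntermediateField.adjoin K {jL K M L, jdL K M L N hNM} := fun _ hy =>
  mem_adjoin_pair K M L hNM fun _ hg => phi_of_mem_adjoin_gensL K M L hy hg

theorem jL_mem_gensL (N : ℕ) : jL K M L ∈ gensL K M L N :=
  ⟨1, inferInstance, one_dvd M, one_dvd N, jL_eq_jdL_one K M L⟩

theorem adjoin_jL_le (N : ℕ) :
    K⟮jL K M L⟯ ≤ IntermediateField.adjoin K (gensL K M L N) := by
  rw [IntermediateField.adjoin_simple_le_iff]
  exact IntermediateField.subset_adjoin _ _ (jL_mem_gensL K M L N)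

/-- The degree of the field of `Γ₀(N)`-invariants over `K(j)`. -/
theorem relfinrank_gensL {N : ℕ} [NeZero N] (hNM : N ∣ M) :
    IntermediateField.relfinrank K⟮jL K M L⟯ (IntermediateField.adjoin K (gensL K M L N)) =
      dedekindPsi N := by
  haveI hG := isGaloisGroup_range (phi K M L) (phi_jL K M L) (fun _ hy => mem_adjoin_jL K M L hy)
  have hle := adjoin_jL_le K M L N
  rw [IntermediateField.relfinrank_eq_finrank_of_le hle]
  let G := (phi K M L).range
  let H : Subgroup G := (CongruenceSubgroup.Gamma0 N).map (phi K M L).rangeRestrict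
  let E : IntermediateField K⟮jL K M L⟯ L := IntermediateField.extendScalars hle
  have hE : FixedPoints.intermediateField H = E := by
    ext y
    constructor
    · intro hy
      change y ∈ IntermediateField.adjoin K (gensL K M L N)
      apply mem_adjoin_gensL K M L hNM
      intro g hg
      exact hy ⟨(phi K M L).rangeRestrict g, Subgroup.mem_map_of_mem _ hg⟩
    · rintro hy ⟨_, g, hg, rfl⟩
      exact phi_of_mem_adjoin_gensL K M L hy hg
  have h1 : Module.finrank E L = Nat.card H := by
    rw [← hE]
    exact IsGaloisGroup.finrank_fixedPoints_eq_card_subgroup G K⟮jL K M L⟯ L H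
  have h2 : Nat.card G = Module.finrank K⟮jL K M L⟯ L := IsGaloisGroup.card_eq_finrank G _ L
  have h3 : Module.finrank K⟮jL K M L⟯ E * Module.finrank E L = Module.finrank K⟮jL K M L⟯ L :=
    Module.finrank_mul_finrank _ _ _
  have h4 : Nat.card H * H.index = Nat.card G := H.card_mul_index
  have h5 : H.index = dedekindPsi N := by
    rw [← index_Gamma0 N (Nat.pos_of_neZero N)]
    apply Subgroup.index_map_eq
    · exact MonoidHom.rangeRestrict_surjective _
    · rw [MonoidHom.ker_rangeRestrict]
      exact (ker_phi_le K M L).trans (Gamma0_le_of_dvd hNM)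
  have h6 : 0 < Nat.card H := Nat.card_pos
  rw [← h5]
  have h7 : Nat.card H * Module.finrank K⟮jL K M L⟯ E = Nat.card H * H.index := by
    rw [h4, h2, ← h3, h1, mul_comm]
  exact Nat.eq_of_mul_eq_mul_left h6 h7

theorem isFnField_of_algHom {N : ℕ} [NeZero N] {F : Type*} [Field F] [Algebra K F]
    (hNM : N ∣ M) (ι : F →ₐ[K] L) (jF : F) (hj : ι jF = jL K M L)
    (h1 : ∀ y ∈ IntermediateField.adjoin K (gensL K M L N), y ∈ Set.range ι) :
    IsFnField K F := by
  haveI : IsFnField K L := isFnField_L K M L
  letI : Algebra F L := ι.toRingHom.toAlgebra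
  haveI : IsScalarTower K F L := IsScalarTower.of_algebraMap_eq fun a => (ι.commutes a).symm
  haveI : Algebra.IsIntegral F L := by
    refine isIntegral_of_invariants (phi K M L) (CongruenceSubgroup.Gamma0 N) ?_
    intro y hy
    exact h1 y (mem_adjoin_gensL K M L hNM hy)
  have hjt : Transcendental K jF := by
    have h2 := transcendental_jL K M L
    rw [← hj] at h2
    intro h3
    exact h2 (h3.algHom ι)
  exact isFnField_of_isIntegral (L := L) hjt

end Embedding

section Final

variable (K : Type) [Field K] [Algebra K ℂ] [IsAlgClosed K] [Algebra ℚ K]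

theorem coeffEmb_jq_eq : coeffEmb K jq = jqModC K := by
  rw [coeffEmb, ← jqModC_rat, coeffMap_jqModC]

theorem isFnField_FN (M : ℕ) [NeZero M] : IsFnField K (FN K M) := by
  obtain ⟨e, he⟩ := exists_embedding K M (FractionRing (modR K M)) M dvd_rfl
  refine isFnField_of_algHom K M (FractionRing (modR K M)) (dvd_refl M)
    ((IntermediateField.adjoin K (gensL K M (FractionRing (modR K M)) M)).val.comp
      e.toAlgHom) ⟨jqModC K, jqModC_mem_laurentBaseChange K M⟩ ?_ ?_
  · apply (qexpL K M (FractionRing (modR K M))).toRingHom.injective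
    exact (he _).trans (qexpL_jL K M _).symm
  · intro y hy
    exact ⟨e.symm ⟨y, hy⟩, congrArg Subtype.val (e.apply_symm_apply ⟨y, hy⟩)⟩

/-- **The structural inputs hold** for the function fields of `X₀(M)` over an algebraically closed
subfield of `ℂ`. -/
theorem modularFieldInputs : ModularFieldInputs K := by
  constructor
  · intro M _
    exact isFnField_FN K M
  · intro M _
    let L := FractionRing (modR K M)
    have hmap : (FN K M).map (qE K M) =
        (IntermediateField.adjoin K (gensL K M L M)).map (qexpL K M L) := by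
      rw [map_adjoin_gensL K M L dvd_rfl, ← laurentBaseChange_eq]
    have hmapj : (K⟮coeffEmb K jq⟯).map (qE K M) = (K⟮jL K M L⟯).map (qexpL K M L) := by
      rw [IntermediateField.adjoin_map, IntermediateField.adjoin_map, Set.image_singleton,
        Set.image_singleton, coeffEmb_jq_eq, qexpL_jL]
    rw [← IntermediateField.relfinrank_map_map _ _ (qE K M), hmap, hmapj,
      IntermediateField.relfinrank_map_map]
    exact relfinrank_gensL K M L dvd_rfl
  · intro M _
    let L := FractionRing (modR K M)
    have hmap : (FN K M).map (qE K M) =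
        (IntermediateField.adjoin K (gensL K M L M)).map (qexpL K M L) := by
      rw [map_adjoin_gensL K M L dvd_rfl, ← laurentBaseChange_eq]
    have h2 : (IntermediateField.adjoin K {coeffEmb K jq, coeffEmb K (qExpand ℚ M jq)}).map
        (qE K M) = (IntermediateField.adjoin K
          {jL K M L, jdL K M L M dvd_rfl}).map (qexpL K M L) := by
      rw [IntermediateField.adjoin_map, IntermediateField.adjoin_map, Set.image_pair,
        Set.image_pair, coeffEmb_jq_eq, qexpL_jL, coeffEmb_qExpand_jq, qexpL_jdL]
    have h3 := IntermediateField.map_mono (qexpL K M L) (adjoin_gensL_le K M L (dvd_refl M))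
    rw [← hmap, ← h2] at h3
    intro x hx
    have hx' := h3 (show qE K M x ∈ (FN K M).map (qE K M) from ⟨x, hx, rfl⟩)
    obtain ⟨y, hy, hyx⟩ := hx'
    have : y = x := (qE K M).toRingHom.injective hyx
    rw [← this]
    exact hy

end Final

theorem modularFieldInputsBar : ModularFieldInputs (AlgebraicClosure ℚ) := by
  have : Algebra.IsAlgebraic ℚ (AlgebraicClosure ℚ) := AlgebraicClosure.isAlgebraic ℚ
  let _ : Algebra (AlgebraicClosure ℚ) ℂ :=
    (IsAlgClosed.lift (R := ℚ) (S := AlgebraicClosure ℚ) (M := ℂ)).toRingHom.toAlgebra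
  exact modularFieldInputs (AlgebraicClosure ℚ)

theorem modularFieldInputsC : ModularFieldInputs ℂ := modularFieldInputs ℂ

end Fermat.Agent.JZ
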