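import Fermat.Agent.JZ.Commute
import Fermat.Agent.RR.Approx
import Mathlib.FieldTheory.Relrank

/-!
Facts on morphisms of function fields "along" an algebra homomorphism.
-/

set_option autoImplicit false

namespace Fermat.Agent.JZ

open AlgebraicCurve IsLocalRing Fermat.Agent.FF IntermediateField WithZero

section

variable {K F F' : Type*} [Field K] [Field F] [Field F'] [Algebra K F] [Algebra K F']

variable (K F) in
theorem exists_transcendental_of_fnField [h : IsFnField K F] : ∃ x : F, Transcendental K x := by
  by_contra hcon
  push Not at hcon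
  have h1 : Algebra.IsAlgebraic K F := ⟨fun x => by
    have := hcon x
    simpa [Transcendental] using this⟩
  have h2 := h.trdeg_eq_one
  rw [trdeg_eq_zero] at h2
  exact zero_ne_one h2

/-- A morphism of function fields is finite. -/
theorem finiteAlong [IsFnField K F] [IsFnField K F'] (φ : F →ₐ[K] F') : FiniteAlong K φ := by
  obtain ⟨x, hx⟩ := exists_transcendental_of_fnField K F
  have hx' : Transcendental K (φ x) := by
    intro h
    exact hx ((isAlgebraic_algHom_iff φ φ.toRingHom.injective).mp h)
  haveI := IsFnField.finiteDimensional hx'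
  letI := algebraAlong φ
  haveI := isScalarTower_along φ
  show Module.Finite F F'
  -- the subfield `K(φ x)` maps to `F`
  have hmem : ∀ y ∈ K⟮φ x⟯, ∃ z : F, φ z = y := by
    intro y hy
    have h1 : K⟮φ x⟯ = (K⟮x⟯).map φ := by
      rw [IntermediateField.adjoin_map, Set.image_singleton]
    rw [h1] at hy
    obtain ⟨z, -, hz⟩ := hy
    exact ⟨z, hz⟩
  obtain ⟨s, hs⟩ := (inferInstance : Module.Finite K⟮φ x⟯ F')
  refine ⟨s, ?_⟩
  rw [eq_top_iff]
  intro y _
  have hy : y ∈ Submodule.span K⟮φ x⟯ (s : Set F') := by rw [hs]; exact Submodule.mem_top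
  induction hy using Submodule.span_induction with
  | mem y hy => exact Submodule.subset_span hy
  | zero => exact zero_mem _
  | add y z _ _ hy hz => exact add_mem (hy trivial) (hz trivial)
  | smul a y _ hy =>
    obtain ⟨z, hz⟩ := hmem a a.2
    have h2 : a • y = z • y := by
      rw [Algebra.smul_def, Algebra.smul_def]
      congr 1
      exact hz.symm
    rw [h2]
    exact Submodule.smul_mem _ _ (hy trivial)

theorem isIntegral_of_finiteAlong (φ : F →ₐ[K] F') (h : FiniteAlong K φ) :
    φ.toRingHom.IsIntegral := by
  letI := algebraAlong φ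
  haveI : Module.Finite F F' := h
  exact fun x => Algebra.IsIntegral.isIntegral (R := F) x

theorem isIntegralAlong [IsFnField K F] [IsFnField K F'] (φ : F →ₐ[K] F') :
    φ.toRingHom.IsIntegral :=
  isIntegral_of_finiteAlong φ (finiteAlong φ)

theorem simpleApprox (K F : Type*) [Field K] [Field F] [Algebra K F] : SimpleApprox K F := by
  classical
  intro w S hw
  obtain ⟨t, ht0, ht⟩ := exists_ord_eq_one w
  obtain ⟨f, hf⟩ := RR.exists_approx (insert w S) (fun v => if v = w then t else 1)
    (fun v => if v = w then -2 else -1)
  refine ⟨f, ?_, fun v hv => ?_⟩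
  · have h1 := hf w (Finset.mem_insert_self w S)
    rw [if_pos rfl, if_pos rfl] at h1
    have h2 := w.adicValuation_le_exp_iff.mp h1
    have h3 : f = t + (f - t) := by ring
    rw [h3, ord_add_eq_of_lt w ht0, ht]
    rcases h2 with h2 | h2
    · exact Or.inl h2
    · right; rw [ht]; linarith
  · have hvw : v ≠ w := fun h => hw (h ▸ hv)
    have h1 := hf v (Finset.mem_insert_of_mem hv)
    rw [if_neg hvw, if_neg hvw] at h1
    have h2 := v.adicValuation_le_exp_iff.mp h1
    have h3 : f = 1 + (f - 1) := by ring
    rw [h3, ord_add_eq_of_lt v one_ne_zero, v.ord_one]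
    rcases h2 with h2 | h2
    · exact Or.inl h2
    · right; rw [v.ord_one]; linarith

end

section Relfinrank

variable {L E : Type*} [Field L] [Field E] [Algebra L E]

/-- The degree along an inclusion of intermediate fields. -/
theorem finrankAlong_inclusion {A B : IntermediateField L E} (h : A ≤ B) :
    finrankAlong L (IntermediateField.inclusion h) = A.relfinrank B := by
  rw [IntermediateField.relfinrank_eq_finrank_of_le h]
  rfl

end Relfinrank

end Fermat.Agent.JZ
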