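import Fermat.Agent.JZ.Galois
import Fermat.Agent.FF.Basic

/-!
Open stabilisers for the Galois action on places, divisors and `Pic⁰`.
-/

set_option autoImplicit false

namespace Fermat.Agent.JZ

open AlgebraicCurve ModularCurve Fermat.Agent.FF

local notation "Qb" => AlgebraicClosure ℚ
local notation "Γℚ" => (AlgebraicClosure ℚ ≃ₐ[ℚ] AlgebraicClosure ℚ)

section Laurent

/-- A Laurent series has coefficients in a finite extension, in the sense that it is fixed by an
open subgroup. -/
def IsSmoothSeries (x : LaurentSeries Qb) : Prop :=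
  ∃ E : IntermediateField ℚ Qb, FiniteDimensional ℚ E ∧
    ∀ σ : Γℚ, (∀ y ∈ E, σ y = y) → coeffMap (σ : Qb →+* Qb) x = x

theorem IsSmoothSeries.op₂ {x y z : LaurentSeries Qb} (hx : IsSmoothSeries x)
    (hy : IsSmoothSeries y)
    (h : ∀ σ : Γℚ, coeffMap (σ : Qb →+* Qb) x = x → coeffMap (σ : Qb →+* Qb) y = y →
      coeffMap (σ : Qb →+* Qb) z = z) : IsSmoothSeries z := by
  obtain ⟨E, hE, hx⟩ := hx
  obtain ⟨E', hE', hy⟩ := hy
  have := hE; have := hE'
  refine ⟨E ⊔ E', inferInstance, fun σ hσ => h σ (hx σ fun y hy => hσ y ?_)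
    (hy σ fun y hy => hσ y ?_)⟩
  · exact le_sup_left (a := E) (b := E') hy
  · exact le_sup_right (a := E) (b := E') hy

theorem isSmoothSeries_algebraMap (a : Qb) :
    IsSmoothSeries (algebraMap Qb (LaurentSeries Qb) a) := by
  have halg := AlgebraicClosure.isAlgebraic ℚ
  refine ⟨IntermediateField.adjoin ℚ {a},
    IntermediateField.adjoin.finiteDimensional (halg.isAlgebraic a).isIntegral, fun σ hσ => ?_⟩
  rw [coeffMap_algebraMap]
  exact congrArg _ (hσ a (IntermediateField.mem_adjoin_simple_self ℚ a))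

theorem isSmoothSeries_coeffEmb (x : LaurentSeries ℚ) : IsSmoothSeries (coeffEmb Qb x) :=
  ⟨⊥, inferInstance, fun σ _ => coeffMap_coeffEmb σ x⟩

theorem isSmoothSeries_of_mem {F₀ : IntermediateField ℚ (LaurentSeries ℚ)} {x : LaurentSeries Qb}
    (hx : x ∈ laurentBaseChange Qb F₀) : IsSmoothSeries x := by
  rw [mem_laurentBaseChange_iff] at hx
  induction hx using Subfield.closure_induction with
  | mem y hy =>
      rcases hy with ⟨a, rfl⟩ | ⟨z, hz, rfl⟩
      · exact isSmoothSeries_algebraMap a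
      · exact isSmoothSeries_coeffEmb z
  | one => exact ⟨⊥, inferInstance, fun σ _ => map_one _⟩
  | add x y _ _ hx hy => exact hx.op₂ hy fun σ h1 h2 => by rw [map_add, h1, h2]
  | neg x _ hx => exact hx.op₂ hx fun σ h1 _ => by rw [map_neg, h1]
  | inv x _ hx => exact hx.op₂ hx fun σ h1 _ => by rw [map_inv₀, h1]
  | mul x y _ _ hx hy => exact hx.op₂ hy fun σ h1 h2 => by rw [map_mul, h1, h2]

end Laurent

section Places

variable {K F : Type*} [Field K] [Field F] [Algebra K F]

/-- two distinct places are separated by a function vanishing at the first one only. -/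
theorem exists_ord_pos_of_ne {v w : Place K F} (h : w ≠ v) :
    ∃ f : F, 0 < v.ord f ∧ ¬ 0 < w.ord f := by
  by_contra hcon
  push Not at hcon
  apply h
  apply eq_of_le
  intro x hx
  by_contra hxv
  have hx0 : x ≠ 0 := fun h0 => hxv (h0 ▸ zero_mem _)
  have h1 : v.ord x < 0 := by
    by_contra h1
    exact hxv (mem_of_ord_nonneg v (not_lt.mp h1))
  have h2 := hcon x⁻¹ (by rw [Place.ord_inv]; omega)
  have h3 := ord_nonneg_of_mem w hx
  rw [Place.ord_inv] at h2
  omega

variable {F₀ : IntermediateField ℚ (LaurentSeries ℚ)}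

theorem exists_level_finset (s : Finset (laurentBaseChange Qb F₀)) :
    ∃ E : IntermediateField ℚ Qb, FiniteDimensional ℚ E ∧
      ∀ σ : Γℚ, (∀ y ∈ E, σ y = y) → ∀ f ∈ s, arithmeticGalois F₀ σ • f = f := by
  classical
  induction s using Finset.induction_on with
  | empty => exact ⟨⊥, inferInstance, fun σ _ f hf => absurd hf (Finset.notMem_empty f)⟩
  | insert f s _ ih =>
    obtain ⟨E, hE, h⟩ := ih
    obtain ⟨E', hE', h'⟩ := isSmoothSeries_of_mem f.2
    have := hE; have := hE'
    refine ⟨E ⊔ E', inferInstance, fun σ hσ g hg => ?_⟩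
    rcases Finset.mem_insert.mp hg with rfl | hg
    · apply Subtype.ext
      rw [coe_arithmeticGalois_smul]
      exact h' σ fun y hy => hσ y (le_sup_right (a := E) (b := E') hy)
    · exact h σ (fun y hy => hσ y (le_sup_left (a := E) (b := E') hy)) g hg

/-- Every place is fixed by an open subgroup of the Galois group. -/
theorem exists_level_place
    (hfin : ∀ f : laurentBaseChange Qb F₀, f ≠ 0 →
      {v : Place Qb (laurentBaseChange Qb F₀) | v.ord f ≠ 0}.Finite)
    (v : Place Qb (laurentBaseChange Qb F₀)) :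
    ∃ E : IntermediateField ℚ Qb, FiniteDimensional ℚ E ∧
      ∀ σ : Γℚ, (∀ y ∈ E, σ y = y) → arithmeticGalois F₀ σ • v = v := by
  classical
  obtain ⟨t, ht0, ht⟩ := exists_ord_eq_one v
  have hf : ∀ w : Place Qb (laurentBaseChange Qb F₀), ∃ f : laurentBaseChange Qb F₀,
      w ≠ v → 0 < v.ord f ∧ ¬ 0 < w.ord f := by
    intro w
    by_cases hw : w = v
    · exact ⟨0, fun h => absurd hw h⟩
    · obtain ⟨f, hf⟩ := exists_ord_pos_of_ne hw
      exact ⟨f, fun _ => hf⟩
  choose f hf using hf
  obtain ⟨E, hE, h⟩ := exists_level_finset (insert t ((hfin t ht0).toFinset.image f))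
  refine ⟨E, hE, fun σ hσ => ?_⟩
  by_contra hne
  set w := arithmeticGalois F₀ σ • v with hw
  have h1 : w.ord t = 1 := by
    have h2 := SemilinearAut.ord_smul (arithmeticGalois F₀ σ) v t
    rw [h σ hσ t (Finset.mem_insert_self _ _), ht] at h2
    exact h2
  have h3 : w ∈ (hfin t ht0).toFinset := by
    rw [Set.Finite.mem_toFinset]
    show w.ord t ≠ 0
    rw [h1]; exact one_ne_zero
  have h4 : f w ∈ insert t ((hfin t ht0).toFinset.image f) :=
    Finset.mem_insert_of_mem (Finset.mem_image_of_mem f h3)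
  have h5 := SemilinearAut.ord_smul (arithmeticGalois F₀ σ) v (f w)
  rw [h σ hσ _ h4] at h5
  have h6 := hf w hne
  have h7 : w.ord (f w) = v.ord (f w) := h5
  rw [h7] at h6
  exact h6.2 h6.1

/-- Every divisor is fixed by an open subgroup of the Galois group. -/
theorem exists_level_divisor
    (hfin : ∀ f : laurentBaseChange Qb F₀, f ≠ 0 →
      {v : Place Qb (laurentBaseChange Qb F₀) | v.ord f ≠ 0}.Finite)
    (D : Divisor Qb (laurentBaseChange Qb F₀)) :
    ∃ E : IntermediateField ℚ Qb, FiniteDimensional ℚ E ∧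
      ∀ σ : Γℚ, (∀ y ∈ E, σ y = y) → arithmeticGalois F₀ σ • D = D := by
  induction D using Finsupp.induction with
  | zero => exact ⟨⊥, inferInstance, fun σ _ => smul_zero _⟩
  | single_add v n D _ _ ih =>
    obtain ⟨E, hE, h⟩ := ih
    obtain ⟨E', hE', h'⟩ := exists_level_place hfin v
    have := hE; have := hE'
    refine ⟨E ⊔ E', inferInstance, fun σ hσ => ?_⟩
    rw [smul_add, SemilinearAut.smul_single,
      h' σ fun y hy => hσ y (le_sup_right (a := E) (b := E') hy),
      h σ fun y hy => hσ y (le_sup_left (a := E) (b := E') hy)]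

/-- Every element of `Pic⁰` is fixed by an open subgroup of the Galois group. -/
theorem exists_level_pic0
    (hfin : ∀ f : laurentBaseChange Qb F₀, f ≠ 0 →
      {v : Place Qb (laurentBaseChange Qb F₀) | v.ord f ≠ 0}.Finite)
    (x : Pic0 Qb (laurentBaseChange Qb F₀)) :
    ∃ E : IntermediateField ℚ Qb, FiniteDimensional ℚ E ∧
      ∀ σ : Γℚ, (∀ y ∈ E, σ y = y) → σ • x = x := by
  obtain ⟨D, rfl⟩ := Pic0.mk_surjective x
  obtain ⟨E, hE, h⟩ := exists_level_divisor hfin (D : Divisor Qb (laurentBaseChange Qb F₀))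
  refine ⟨E, hE, fun σ hσ => ?_⟩
  rw [galois_smul_pic0_def, SemilinearAut.pic0_smul_mk]
  refine congrArg Pic0.mk (Subtype.ext ?_)
  rw [SemilinearAut.coe_degZeroSMulHom]
  exact h σ hσ

theorem exists_level_pic0_of_hasPrincipalDivisors
    [H : HasPrincipalDivisors Qb (laurentBaseChange Qb F₀)]
    (x : Pic0 Qb (laurentBaseChange Qb F₀)) :
    ∃ E : IntermediateField ℚ Qb, FiniteDimensional ℚ E ∧
      ∀ σ : Γℚ, (∀ y ∈ E, σ y = y) → σ • x = x := by
  refine exists_level_pic0 (fun f hf => ?_) x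
  obtain ⟨D, hD, -⟩ := HasPrincipalDivisors.exists_divisor (K := Qb) f hf
  refine D.support.finite_toSet.subset fun v hv => ?_
  rw [Finset.mem_coe, Finsupp.mem_support_iff, hD v]
  exact hv

end Places

end Fermat.Agent.JZ
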