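import Fermat.Agent.JZ.Functorial
import Fermat.Agent.FF.FnField

/-!
Commutation of correspondences.
-/

set_option autoImplicit false

namespace Fermat.Agent.JZ

open AlgebraicCurve IsLocalRing

variable {K F F₁ F₂ F₃ : Type*} [Field K] [Field F] [Field F₁] [Field F₂] [Field F₃]
  [Algebra K F] [Algebra K F₁] [Algebra K F₂] [Algebra K F₃]

/-- Weak approximation in the simple form used for the base change identity. -/
def SimpleApprox (K F : Type*) [Field K] [Field F] [Algebra K F] : Prop :=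
  ∀ (w : Place K F) (S : Finset (Place K F)), w ∉ S →
      ∃ g : F, w.ord g = 1 ∧ ∀ v ∈ S, v.ord g = 0

/-- **Commutation of two correspondences** in a cube of function fields. -/
theorem correspondence_comm [HasPrincipalDivisors K F₁]
    [HasPrincipalDivisors K F₂] [HasPrincipalDivisors K F₃]
    (hdeg : ∀ v : Place K F, v.deg ≠ 0)
    (happ₁ : SimpleApprox K F₁) (happ₂ : SimpleApprox K F₂)
    {α₁ β₁ : F →ₐ[K] F₁} {α₂ β₂ : F →ₐ[K] F₂} {α₁' β₁' : F₂ →ₐ[K] F₃} {α₂' β₂' : F₁ →ₐ[K] F₃}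
    (hα₁ : α₁.toRingHom.IsIntegral) (hβ₁ : β₁.toRingHom.IsIntegral)
    (hα₂ : α₂.toRingHom.IsIntegral) (hβ₂ : β₂.toRingHom.IsIntegral)
    (hα₁' : α₁'.toRingHom.IsIntegral) (hβ₁' : β₁'.toRingHom.IsIntegral)
    (hα₂' : α₂'.toRingHom.IsIntegral) (hβ₂' : β₂'.toRingHom.IsIntegral)
    (hαα : α₂'.comp α₁ = α₁'.comp α₂) (hβα : β₂'.comp α₁ = α₁'.comp β₂)
    (hαβ : β₁'.comp α₂ = α₂'.comp β₁) (hββ : β₂'.comp β₁ = β₁'.comp β₂)
    (hf₁ : FiniteAlong K α₁) (hf₂ : FiniteAlong K α₂)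
    (hf₁' : FiniteAlong K α₁') (hf₂' : FiniteAlong K α₂')
    (hN₁ : NormFormulaAlong K α₁ hf₁) (hN₂ : NormFormulaAlong K α₂ hf₂)
    (hN₁' : NormFormulaAlong K α₁' hf₁') (hN₂' : NormFormulaAlong K α₂' hf₂')
    (hr₁ : finrankAlong K α₁ = finrankAlong K α₁')
    (hr₂ : finrankAlong K α₂ = finrankAlong K α₂')
    (hgen₁ : ∀ S : Subfield F₃, (∀ x, α₁' x ∈ S) → (∀ x, β₂' x ∈ S) → S = ⊤)
    (hgen₂ : ∀ S : Subfield F₃, (∀ x, α₂' x ∈ S) → (∀ x, β₁' x ∈ S) → S = ⊤)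
    (D : Divisor K F) :
    Divisor.correspondence β₂ α₂ hβ₂ hα₂ (Divisor.correspondence β₁ α₁ hβ₁ hα₁ D) =
      Divisor.correspondence β₁ α₁ hβ₁ hα₁ (Divisor.correspondence β₂ α₂ hβ₂ hα₂ D) := by
  have hαα₁ : (α₁'.comp α₂).toRingHom.IsIntegral := RingHom.IsIntegral.trans _ _ hα₂ hα₁'
  have hαα₂ : (α₂'.comp α₁).toRingHom.IsIntegral := RingHom.IsIntegral.trans _ _ hα₁ hα₂'
  have hββ₁ : (β₂'.comp β₁).toRingHom.IsIntegral := RingHom.IsIntegral.trans _ _ hβ₁ hβ₂'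
  have hββ₂ : (β₁'.comp β₂).toRingHom.IsIntegral := RingHom.IsIntegral.trans _ _ hβ₂ hβ₁'
  rw [Divisor.correspondence_apply, Divisor.correspondence_apply, Divisor.correspondence_apply,
    Divisor.correspondence_apply,
    pullbackAlong_pushforwardAlong hβα hα₁ hβ₂ hβ₂' hα₁' hf₁ hf₁' hN₁ hN₁'
      (normAlong_baseChange hβα hf₁ hf₁' hr₁ hgen₁) happ₁,
    pullbackAlong_pushforwardAlong hαβ hα₂ hβ₁ hβ₁' hα₂' hf₂ hf₂' hN₂ hN₂'
      (normAlong_baseChange hαβ hf₂ hf₂' hr₂ hgen₂) happ₂,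
    pushforwardAlong_comp α₂ hα₂ α₁' hα₁' hαα₁ hdeg,
    pushforwardAlong_comp α₁ hα₁ α₂' hα₂' hαα₂ hdeg,
    pullbackAlong_comp β₁ hβ₁ β₂' hβ₂' hββ₁, pullbackAlong_comp β₂ hβ₂ β₁' hβ₁' hββ₂]
  have h1 : Divisor.pullbackAlong (β₂'.comp β₁) hββ₁ D =
      Divisor.pullbackAlong (β₁'.comp β₂) hββ₂ D := by
    congr 1
    congr 1
  rw [h1]
  generalize Divisor.pullbackAlong (β₁'.comp β₂) hββ₂ D = E
  congr 1
  congr 1
  exact hαα.symm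

/-- The same for `Pic⁰`. -/
theorem pic0_correspondence_comm [HasPrincipalDivisors K F₁]
    [HasPrincipalDivisors K F₂]
    {α₁ β₁ : F →ₐ[K] F₁} {α₂ β₂ : F →ₐ[K] F₂}
    (hα₁ : α₁.toRingHom.IsIntegral) (hβ₁ : β₁.toRingHom.IsIntegral)
    (hα₂ : α₂.toRingHom.IsIntegral) (hβ₂ : β₂.toRingHom.IsIntegral)
    (hf₁ : FiniteAlong K α₁) (hf₂ : FiniteAlong K α₂)
    (hN₁ : NormFormulaAlong K α₁ hf₁) (hN₂ : NormFormulaAlong K α₂ hf₂)
    (hFI₁ : FundamentalIdentityAlong K β₁ hβ₁) (hFI₂ : FundamentalIdentityAlong K β₂ hβ₂)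
    (h : ∀ D : Divisor K F,
      Divisor.correspondence β₂ α₂ hβ₂ hα₂ (Divisor.correspondence β₁ α₁ hβ₁ hα₁ D) =
      Divisor.correspondence β₁ α₁ hβ₁ hα₁ (Divisor.correspondence β₂ α₂ hβ₂ hα₂ D))
    (x : Pic0 K F) :
    Pic0.correspondence β₂ α₂ hβ₂ hα₂ hFI₂ hf₂ hN₂
      (Pic0.correspondence β₁ α₁ hβ₁ hα₁ hFI₁ hf₁ hN₁ x) =
    Pic0.correspondence β₁ α₁ hβ₁ hα₁ hFI₁ hf₁ hN₁
      (Pic0.correspondence β₂ α₂ hβ₂ hα₂ hFI₂ hf₂ hN₂ x) := by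
  obtain ⟨D, rfl⟩ := Pic0.mk_surjective x
  rw [Pic0.correspondence_mk, Pic0.correspondence_mk, Pic0.correspondence_mk,
    Pic0.correspondence_mk]
  refine congrArg Pic0.mk (Subtype.ext ?_)
  simp only [Pic0.coe_degZeroCorrespondence]
  exact h _

end Fermat.Agent.JZ
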