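import Fermat.Prelude.Def_AlgebraicCurve_Correspondence

/-!
Equivariance of pull-back and push-forward of divisors under semilinear automorphisms.
-/

set_option autoImplicit false

namespace Fermat.Agent.JZ

open AlgebraicCurve IsLocalRing
open scoped Pointwise

variable {K F F' : Type*} [Field K] [Field F] [Field F'] [Algebra K F] [Algebra K F']

section
variable {φ : F →ₐ[K] F'} {hφ : φ.toRingHom.IsIntegral}
  {g : SemilinearAut K F} {g' : SemilinearAut K F'}

theorem mem_smul_toValuationSubring (v : Place K F) (x : F) :
    x ∈ (g • v).toValuationSubring ↔ g⁻¹ • x ∈ v.toValuationSubring := by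
  rw [SemilinearAut.smul_toValuationSubring,
    ValuationSubring.mem_pointwise_smul_iff_inv_smul_mem]

theorem mem_restrictAlong (w : Place K F') (x : F) :
    x ∈ (w.restrictAlong φ hφ).toValuationSubring ↔ φ x ∈ w.toValuationSubring := Iff.rfl

theorem restrictAlong_smul (h : SemilinearAut.IntertwinesAlong (φ : F →+* F') g g')
    (w : Place K F') : (g' • w).restrictAlong φ hφ = g • w.restrictAlong φ hφ := by
  apply Place.ext
  ext x
  rw [mem_restrictAlong, mem_smul_toValuationSubring, mem_smul_toValuationSubring,
    mem_restrictAlong]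
  have h1 : g'⁻¹ • φ x = φ (g⁻¹ • x) := h.inv x
  rw [h1]

theorem ramificationIndexAlong_smul (h : SemilinearAut.IntertwinesAlong (φ : F →+* F') g g')
    (w : Place K F') : (g' • w).ramificationIndexAlong φ = w.ramificationIndexAlong φ := by
  have h1 : ∀ f : F, (g' • w).ord (φ (g • f)) = w.ord (φ f) := by
    intro f
    have h2 : g' • φ f = φ (g • f) := h f
    rw [← h2, SemilinearAut.ord_smul]
  have h3 : {n : ℕ | 0 < n ∧ ∃ f : F, f ≠ 0 ∧ (g' • w).ord (φ f) = n} =
      {n : ℕ | 0 < n ∧ ∃ f : F, f ≠ 0 ∧ w.ord (φ f) = n} := by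
    ext n
    simp only [Set.mem_ofPred_eq]
    refine and_congr_right fun _ => ⟨?_, ?_⟩
    · rintro ⟨f, hf, hn⟩
      refine ⟨g⁻¹ • f, (smul_ne_zero_iff_ne _).mpr hf, ?_⟩
      rw [← h1, smul_inv_smul, hn]
    · rintro ⟨f, hf, hn⟩
      exact ⟨g • f, (smul_ne_zero_iff_ne _).mpr hf, by rw [h1, hn]⟩
  exact congrArg sInf h3

/-- the equivalence on the valuation rings of the restricted places -/
noncomputable def restrictEquiv (h : SemilinearAut.IntertwinesAlong (φ : F →+* F') g g')
    (w : Place K F') :
    (w.restrictAlong φ hφ).toValuationSubring ≃+*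
      ((g' • w).restrictAlong φ hφ).toValuationSubring where
  toFun x := ⟨g • (x : F), by
    rw [mem_restrictAlong, mem_smul_toValuationSubring]
    have h1 : g' • φ (x : F) = φ (g • (x : F)) := h x
    rw [← h1, inv_smul_smul]
    exact x.2⟩
  invFun y := ⟨g⁻¹ • (y : F), by
    rw [mem_restrictAlong]
    have h1 : g'⁻¹ • φ (y : F) = φ (g⁻¹ • (y : F)) := h.inv y
    rw [← h1, ← mem_smul_toValuationSubring]
    exact y.2⟩
  left_inv x := Subtype.ext (inv_smul_smul g (x : F))
  right_inv y := Subtype.ext (smul_inv_smul g (y : F))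
  map_mul' x y := Subtype.ext (smul_mul' g (x : F) (y : F))
  map_add' x y := Subtype.ext (smul_add g (x : F) (y : F))

theorem inertiaDegAlong_smul (h : SemilinearAut.IntertwinesAlong (φ : F →+* F') g g')
    (w : Place K F') : (g' • w).inertiaDegAlong φ hφ = w.inertiaDegAlong φ hφ := by
  letI := algebraAlong φ
  haveI := isScalarTower_along φ
  haveI := isIntegral_along φ hφ
  let e0 : (w.restrict F).toValuationSubring ≃+* ((g' • w).restrict F).toValuationSubring :=
    restrictEquiv (hφ := hφ) h w
  let e : (w.restrict F).ResidueField ≃+* ((g' • w).restrict F).ResidueField :=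
    IsLocalRing.ResidueField.mapEquiv e0
  have key : Module.finrank (w.restrict F).ResidueField w.ResidueField =
      Module.finrank ((g' • w).restrict F).ResidueField (g' • w).ResidueField := by
    refine Algebra.finrank_eq_of_equiv_equiv e (SemilinearAut.smulResidueRingEquiv g' w) ?_
    ext a
    obtain ⟨a, rfl⟩ := IsLocalRing.residue_surjective a
    show (algebraMap ((g' • w).restrict F).ResidueField (g' • w).ResidueField)
      (IsLocalRing.ResidueField.mapEquiv e0 (IsLocalRing.residue _ a)) =
      SemilinearAut.smulResidueRingEquiv g' w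
        (algebraMap (w.restrict F).ResidueField w.ResidueField (IsLocalRing.residue _ a))
    rw [IsLocalRing.ResidueField.mapEquiv_apply, IsLocalRing.ResidueField.map_residue,
      Place.algebraMap_residueField_eq, Place.algebraMap_residueField_eq,
      Place.restrictResidueMap_residue, Place.restrictResidueMap_residue]
    show _ = IsLocalRing.ResidueField.mapEquiv _ (IsLocalRing.residue _ _)
    rw [IsLocalRing.ResidueField.mapEquiv_apply, IsLocalRing.ResidueField.map_residue]
    refine congrArg _ (Subtype.ext ?_)
    exact (h (a : F)).symm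
  exact key.symm

theorem pullbackAlong_smul [HasPrincipalDivisors K F']
    (h : SemilinearAut.IntertwinesAlong (φ : F →+* F') g g') (D : Divisor K F) :
    Divisor.pullbackAlong φ hφ (g • D) = g' • Divisor.pullbackAlong φ hφ D := by
  ext w
  rw [Divisor.pullbackAlong_apply, SemilinearAut.divisor_smul_apply,
    SemilinearAut.divisor_smul_apply, Divisor.pullbackAlong_apply,
    ramificationIndexAlong_smul h.inv, restrictAlong_smul h.inv]

theorem pushforwardAlong_smul
    (h : SemilinearAut.IntertwinesAlong (φ : F →+* F') g g') (D : Divisor K F') :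
    Divisor.pushforwardAlong φ hφ (g' • D) = g • Divisor.pushforwardAlong φ hφ D := by
  induction D using Finsupp.induction with
  | zero => simp
  | single_add w n D _ _ ih =>
    rw [smul_add, map_add, map_add, smul_add, ih, SemilinearAut.smul_single,
      Divisor.pushforwardAlong_single, Divisor.pushforwardAlong_single,
      SemilinearAut.smul_single, inertiaDegAlong_smul h, restrictAlong_smul h]

end

section Correspondence

variable [HasPrincipalDivisors K F']
variable {φ ψ : F →ₐ[K] F'} {hφ : φ.toRingHom.IsIntegral} {hψ : ψ.toRingHom.IsIntegral}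
variable {g : SemilinearAut K F} {g' : SemilinearAut K F'}

theorem divisor_correspondence_smul
    (h : SemilinearAut.IntertwinesAlong (φ : F →+* F') g g')
    (h' : SemilinearAut.IntertwinesAlong (ψ : F →+* F') g g') (D : Divisor K F) :
    Divisor.correspondence φ ψ hφ hψ (g • D) = g • Divisor.correspondence φ ψ hφ hψ D := by
  rw [Divisor.correspondence_apply, Divisor.correspondence_apply, pullbackAlong_smul h,
    pushforwardAlong_smul h']

theorem pic0_correspondence_smul (hFI : FundamentalIdentityAlong K φ hφ)
    (hfin : FiniteAlong K ψ) (hN : NormFormulaAlong K ψ hfin)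
    (h : SemilinearAut.IntertwinesAlong (φ : F →+* F') g g')
    (h' : SemilinearAut.IntertwinesAlong (ψ : F →+* F') g g') (x : Pic0 K F) :
    Pic0.correspondence φ ψ hφ hψ hFI hfin hN (g • x) =
      g • Pic0.correspondence φ ψ hφ hψ hFI hfin hN x := by
  obtain ⟨D, rfl⟩ := Pic0.mk_surjective x
  rw [SemilinearAut.pic0_smul_mk, Pic0.correspondence_mk, Pic0.correspondence_mk,
    SemilinearAut.pic0_smul_mk]
  refine congrArg Pic0.mk (Subtype.ext ?_)
  rw [Pic0.coe_degZeroCorrespondence, SemilinearAut.coe_degZeroSMulHom,
    SemilinearAut.coe_degZeroSMulHom, Pic0.coe_degZeroCorrespondence,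
    divisor_correspondence_smul h h']

end Correspondence

end Fermat.Agent.JZ
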