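import Fermat.Agent.JZ.BaseChange
import Mathlib

/-!
Functoriality of pull-back and push-forward of divisors; basis criterion for compatibility of
norms.
-/

set_option autoImplicit false

namespace Fermat.Agent.JZ

open AlgebraicCurve IsLocalRing

variable {K F F₁ F₂ F₃ : Type*} [Field K] [Field F] [Field F₁] [Field F₂] [Field F₃]
  [Algebra K F] [Algebra K F₁] [Algebra K F₂] [Algebra K F₃]

section Functoriality

variable (φ : F →ₐ[K] F₁) (hφ : φ.toRingHom.IsIntegral)
    (ψ : F₁ →ₐ[K] F₂) (hψ : ψ.toRingHom.IsIntegral)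
    (hψφ : (ψ.comp φ).toRingHom.IsIntegral)

include hφ hψ hψφ in
theorem ramificationIndexAlong_comp (w : Place K F₂) :
    w.ramificationIndexAlong (ψ.comp φ) =
      w.ramificationIndexAlong ψ * (w.restrictAlong ψ hψ).ramificationIndexAlong φ := by
  obtain ⟨f, -, hf1⟩ := FF.exists_ord_eq_one (w.restrictAlong (ψ.comp φ) hψφ)
  have h1 := Place.ord_restrictAlong (ψ.comp φ) hψφ w f
  have h2 := Place.ord_restrictAlong ψ hψ w (φ f)
  have h3 := Place.ord_restrictAlong φ hφ (w.restrictAlong ψ hψ) f
  rw [restrictAlong_comp φ hφ ψ hψ hψφ w, hf1] at h3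
  rw [hf1] at h1
  rw [h3] at h2
  have h4 : w.ord ((ψ.comp φ) f) = w.ord (ψ (φ f)) := rfl
  rw [h4, h2] at h1
  have h5 : ((w.ramificationIndexAlong ψ *
      (w.restrictAlong ψ hψ).ramificationIndexAlong φ : ℕ) : ℤ) =
      (w.ramificationIndexAlong (ψ.comp φ) : ℤ) := by
    push_cast
    linarith
  exact_mod_cast h5.symm

theorem deg_restrictAlong_mul_inertiaDegAlong (w : Place K F₁) :
    (w.restrictAlong φ hφ).deg * w.inertiaDegAlong φ hφ = w.deg := by
  letI := algebraAlong φ
  haveI := isScalarTower_along φ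
  haveI := isIntegral_along φ hφ
  exact w.deg_restrict_mul_inertiaDeg

theorem inertiaDegAlong_comp (hdeg : ∀ v : Place K F, v.deg ≠ 0) (w : Place K F₂) :
    w.inertiaDegAlong (ψ.comp φ) hψφ =
      w.inertiaDegAlong ψ hψ * (w.restrictAlong ψ hψ).inertiaDegAlong φ hφ := by
  have h1 := deg_restrictAlong_mul_inertiaDegAlong (ψ.comp φ) hψφ w
  have h2 := deg_restrictAlong_mul_inertiaDegAlong ψ hψ w
  have h3 := deg_restrictAlong_mul_inertiaDegAlong φ hφ (w.restrictAlong ψ hψ)
  rw [restrictAlong_comp φ hφ ψ hψ hψφ w] at h3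
  rw [← h2, ← h3] at h1
  have h4 := hdeg (w.restrictAlong (ψ.comp φ) hψφ)
  have h5 : (w.restrictAlong (ψ.comp φ) hψφ).deg * w.inertiaDegAlong (ψ.comp φ) hψφ =
      (w.restrictAlong (ψ.comp φ) hψφ).deg *
        (w.inertiaDegAlong ψ hψ * (w.restrictAlong ψ hψ).inertiaDegAlong φ hφ) := by
    rw [h1]; ring
  exact Nat.eq_of_mul_eq_mul_left (Nat.pos_of_ne_zero h4) h5

theorem pushforwardAlong_comp (hdeg : ∀ v : Place K F, v.deg ≠ 0) (D : Divisor K F₂) :
    Divisor.pushforwardAlong φ hφ (Divisor.pushforwardAlong ψ hψ D) =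
      Divisor.pushforwardAlong (ψ.comp φ) hψφ D := by
  induction D using Finsupp.induction_linear with
  | zero => simp only [map_zero]
  | add D E hD hE => rw [map_add, map_add, map_add, hD, hE]
  | single w n =>
    rw [Divisor.pushforwardAlong_single, Divisor.pushforwardAlong_single,
      Divisor.pushforwardAlong_single, restrictAlong_comp φ hφ ψ hψ hψφ w,
      inertiaDegAlong_comp φ hφ ψ hψ hψφ hdeg w]
    congr 1
    push_cast
    ring

theorem pullbackAlong_comp [HasPrincipalDivisors K F₁] [HasPrincipalDivisors K F₂]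
    (D : Divisor K F) :
    Divisor.pullbackAlong ψ hψ (Divisor.pullbackAlong φ hφ D) =
      Divisor.pullbackAlong (ψ.comp φ) hψφ D := by
  ext w
  rw [Divisor.pullbackAlong_apply, Divisor.pullbackAlong_apply, Divisor.pullbackAlong_apply,
    restrictAlong_comp φ hφ ψ hψ hψφ w, ramificationIndexAlong_comp φ hφ ψ hψ hψφ w]
  push_cast
  ring

end Functoriality

section Norm

/-- If a basis is mapped to a basis then norms are compatible with base change. -/
theorem norm_baseChange_of_basis {A B A' B' : Type*} [CommRing A] [CommRing B] [CommRing A']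
    [CommRing B'] [Algebra A B] [Algebra A' B'] (f : A →+* A') (g : B →+* B')
    (hfg : ∀ x : A, g (algebraMap A B x) = algebraMap A' B' (f x))
    {ι : Type*} [Fintype ι] (e : Module.Basis ι A B) (e' : Module.Basis ι A' B')
    (he : ∀ i, g (e i) = e' i) (x : B) :
    f (Algebra.norm A x) = Algebra.norm A' (g x) := by
  classical
  rw [Algebra.norm_eq_matrix_det e, Algebra.norm_eq_matrix_det e', RingHom.map_det]
  congr 1
  ext i j
  rw [RingHom.mapMatrix_apply, Matrix.map_apply, Algebra.leftMulMatrix_eq_repr_mul,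
    Algebra.leftMulMatrix_eq_repr_mul, ← he j, ← map_mul]
  conv_rhs => rw [← e.sum_repr (x * e j), map_sum]
  have h1 : ∀ k, g (e.repr (x * e j) k • e k) = f (e.repr (x * e j) k) • e' k := by
    intro k
    rw [Algebra.smul_def, map_mul, hfg, he, ← Algebra.smul_def]
  simp only [h1]
  rw [e'.repr_sum_self]

/-- Compatibility of norms in a square of fields of the same degree, the upper corner being
generated by the two other ones. -/
theorem norm_baseChange_of_finrank {A B A' B' : Type*} [Field A] [Field B] [Field A']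
    [Field B'] [Algebra A B] [Algebra A' B'] (f : A →+* A') (g : B →+* B')
    (hfg : ∀ x : A, g (algebraMap A B x) = algebraMap A' B' (f x))
    [FiniteDimensional A B] [FiniteDimensional A' B']
    (hrank : Module.finrank A B = Module.finrank A' B')
    (hgen : IntermediateField.adjoin A' (Set.range g) = ⊤) (x : B) :
    f (Algebra.norm A x) = Algebra.norm A' (g x) := by
  classical
  let e := Module.finBasis A B
  -- the span of the image of a basis is everything
  have hspan : Submodule.span A' (Set.range fun i => g (e i)) = ⊤ := by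
    -- it is a subalgebra containing the range of `g`
    have h1 : ∀ y : B, g y ∈ Submodule.span A' (Set.range fun i => g (e i)) := by
      intro y
      rw [← e.sum_repr y, map_sum]
      refine Submodule.sum_mem _ fun k _ => ?_
      rw [Algebra.smul_def, map_mul, hfg, ← Algebra.smul_def]
      exact Submodule.smul_mem _ _ (Submodule.subset_span ⟨k, rfl⟩)
    have h2 : (Algebra.adjoin A' (Set.range g)).toSubmodule ≤
        Submodule.span A' (Set.range fun i => g (e i)) := by
      rw [Algebra.adjoin_eq_span]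
      rw [Submodule.span_le]
      intro z hz
      have h3 : z ∈ Submonoid.closure (Set.range g) := hz
      have h4 : Submonoid.closure (Set.range g) ≤ MonoidHom.mrange (g : B →* B') := by
        rw [Submonoid.closure_le]
        rintro _ ⟨y, rfl⟩
        exact ⟨y, rfl⟩
      obtain ⟨y, rfl⟩ := h4 h3
      exact h1 y
    rw [eq_top_iff]
    intro z _
    apply h2
    have halg : (Algebra.adjoin A' (Set.range g)) = ⊤ := by
      have h5 : (IntermediateField.adjoin A' (Set.range g)).toSubalgebra =
          Algebra.adjoin A' (Set.range g) :=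
        IntermediateField.adjoin_toSubalgebra_of_isAlgebraic fun y _ =>
          Algebra.IsAlgebraic.isAlgebraic y
      rw [← h5, hgen]
      rfl
    rw [Subalgebra.mem_toSubmodule, halg]
    exact Algebra.mem_top
  let e' : Module.Basis (Fin (Module.finrank A B)) A' B' :=
    basisOfTopLeSpanOfCardEqFinrank (fun i => g (e i)) hspan.ge (by simpa using hrank)
  exact norm_baseChange_of_basis f g hfg e e'
    (fun i => by simp [e', coe_basisOfTopLeSpanOfCardEqFinrank]) x

/-- version along algebra homomorphisms -/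
theorem normAlong_baseChange
    {a : F →ₐ[K] F₁} {b : F →ₐ[K] F₂} {b' : F₁ →ₐ[K] F₃} {a' : F₂ →ₐ[K] F₃}
    (hcomm : b'.comp a = a'.comp b)
    (hfa : FiniteAlong K a) (hfa' : FiniteAlong K a')
    (hrank : finrankAlong K a = finrankAlong K a')
    (hgen : ∀ S : Subfield F₃, (∀ x, a' x ∈ S) → (∀ x, b' x ∈ S) → S = ⊤) (g : F₁) :
    b (normAlong a g) = normAlong a' (b' g) := by
  letI := algebraAlong a
  letI := algebraAlong a'
  haveI : Module.Finite F F₁ := hfa
  haveI : Module.Finite F₂ F₃ := hfa'
  refine norm_baseChange_of_finrank (b : F →+* F₂) (b' : F₁ →+* F₃) ?_ hrank ?_ g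
  · intro x
    exact DFunLike.congr_fun hcomm x
  · have h1 := hgen (IntermediateField.adjoin F₂ (Set.range (b' : F₁ →+* F₃))).toSubfield
      (fun x => (IntermediateField.adjoin F₂ (Set.range (b' : F₁ →+* F₃))).algebraMap_mem x)
      (fun x => IntermediateField.subset_adjoin F₂ _ ⟨x, rfl⟩)
    rw [eq_top_iff]
    intro z _
    have h2 : z ∈ (IntermediateField.adjoin F₂ (Set.range (b' : F₁ →+* F₃))).toSubfield := by
      rw [h1]; exact Subfield.mem_top z
    exact h2

end Norm

end Fermat.Agent.JZ
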